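import Mathlib.RingTheory.Invariant.Basic
import Mathlib.RingTheory.Ideal.GoingUp
import Mathlib.LinearAlgebra.LinearIndependent.Basic
import Mathlib.GroupTheory.Coset.Basic

/-!
# The norm modulo a prime

For a finite group `G` acting on `B` and a prime `P` with inertia group of order `e`, all sums
`∑ g • x` lie in `P` when `e` is zero modulo `P`, and otherwise, for maximal `P`, some do not, by
the independence of the automorphisms of the residue field. So `1` is such a sum iff `G` acts
tamely at every maximal ideal.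
-/

set_option autoImplicit false
set_option linter.style.haveILetI false

noncomputable section

namespace FA.NoetherTame

open Finset MulAction
open scoped Pointwise

variable {A B G : Type*} [CommRing A] [CommRing B] [Algebra A B] [Group G] [Fintype G]
  [MulSemiringAction G B]

/-- **Wild primes contain all norms.** -/
theorem sum_smul_mem (P : Ideal B) (h : (Nat.card (P.inertia G) : B ⧸ P) = 0) (x : B) :
    ∑ g : G, g • x ∈ P := by
  classical
  set I := P.inertia G
  let e : (G ⧸ I) × I → G := fun c => c.1.out * c.2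
  have he : Function.Bijective e := by
    refine (Fintype.bijective_iff_injective_and_card e).2 ⟨fun c c' hcc => ?_, ?_⟩
    · have h1 : c.1 = c'.1 := by
        have := congrArg (QuotientGroup.mk (s := I)) hcc
        simpa [e, QuotientGroup.mk_mul_of_mem] using this
      have h2 : (c.2 : G) = c'.2 := by
        simp only [e] at hcc
        rw [h1] at hcc
        exact mul_left_cancel hcc
      exact Prod.ext h1 (Subtype.ext h2)
    · simp only [← Nat.card_eq_fintype_card, Nat.card_prod]
      exact I.card_eq_card_quotient_mul_card_subgroup.symm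
  rw [← Ideal.Quotient.eq_zero_iff_mem, map_sum, ← Equiv.sum_comp (Equiv.inv G),
    ← he.sum_comp (fun g => Ideal.Quotient.mk P (Equiv.inv G g • x)), Fintype.sum_prod_type]
  refine Finset.sum_eq_zero fun c _ => ?_
  have key : ∀ k : G, ∀ i : I,
      Ideal.Quotient.mk P ((k * i)⁻¹ • x) = Ideal.Quotient.mk P (k⁻¹ • x) := fun k i => by
    rw [mul_inv_rev, mul_smul, Ideal.Quotient.eq]
    exact (I.inv_mem i.2) (k⁻¹ • x)
  simp only [e, Equiv.inv_apply, key, Finset.sum_const, card_univ, nsmul_eq_mul,
    ← Nat.card_eq_fintype_card, h, zero_mul]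

variable [SMulCommClass G A B] [Algebra.IsInvariant A B G]

/-- **Tame primes miss some norm.** -/
theorem exists_sum_smul_notMem (A : Type*) [CommRing A] [Algebra A B] [SMulCommClass G A B]
    (P : Ideal B) [hP : P.IsMaximal] (h : (Nat.card (P.inertia G) : B ⧸ P) ≠ 0) :
    ∃ x, ∑ g : G, g • x ∉ P := by
  classical
  letI : Field (B ⧸ P) := Ideal.Quotient.field P
  set D := MulAction.stabilizer G P
  let ψ := Ideal.Quotient.stabilizerHom P (P.under A) G
  -- a residue with non-zero sum over the decomposition group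
  obtain ⟨y, hy⟩ : ∃ y : B ⧸ P, ∑ d : D, ψ d y ≠ 0 := by
    have hker : Nat.card ψ.ker = Nat.card (P.inertia G) := by
      rw [← Ideal.Quotient.map_ker_stabilizer_subtype P (P.under A) (G := G)]
      exact Nat.card_congr (ψ.ker.equivMapOfInjective _ D.subtype_injective).toEquiv
    by_contra! hy
    let f : ψ.range → (B ⧸ P) →* (B ⧸ P) := fun σ => MonoidHomClass.toMonoidHom σ.1
    have hfinj : Function.Injective f := fun σ τ e =>
      Subtype.ext (AlgEquiv.ext fun z => DFunLike.congr_fun e z)
    have hsum : ∀ z, ∑ σ : ψ.range, (Nat.card (P.inertia G) : B ⧸ P) * f σ z = 0 := fun z => by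
      rw [← hy z]
      symm
      rw [← Finset.sum_fiberwise univ (ψ.rangeRestrict) fun d => ψ d z]
      refine Finset.sum_congr rfl fun σ _ => ?_
      obtain ⟨d₀, hd₀⟩ := ψ.rangeRestrict_surjective σ
      have hcard : (univ.filter fun d => ψ.rangeRestrict d = σ).card = Nat.card ψ.ker := by
        rw [Nat.card_eq_fintype_card, ← Finset.card_univ]
        refine Finset.card_bij' (fun d hd => ⟨d₀⁻¹ * d, ?_⟩) (fun k _ => d₀ * k)
          (fun d _ => mem_univ _) (fun k _ => ?_) (fun d _ => by simp) (fun k _ => by simp)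
        · rw [mem_filter] at hd
          rw [MonoidHom.mem_ker, map_mul, map_inv]
          have e := congrArg Subtype.val (hd.2.trans hd₀.symm)
          simp only [MonoidHom.coe_rangeRestrict] at e
          rw [e, inv_mul_cancel]
        · rw [mem_filter]
          refine ⟨mem_univ _, ?_⟩
          rw [map_mul, hd₀, show ψ.rangeRestrict (k : D) = 1 from Subtype.ext k.2, mul_one]
      rw [Finset.sum_congr rfl fun d hd => show ψ d z = f σ z by
          rw [← (mem_filter.1 hd).2]; rfl,
        Finset.sum_const, nsmul_eq_mul, hcard, hker]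
    have hli := ((linearIndependent_monoidHom (B ⧸ P) (B ⧸ P)).comp f hfinj)
    have := Fintype.linearIndependent_iff.1 hli (fun _ => (Nat.card (P.inertia G) : B ⧸ P))
      (funext fun z => by simpa [Finset.sum_apply] using hsum z) 1
    exact h this
  -- concentrate it at `P`
  set S := (univ.filter fun g : G => g • P ≠ P)
  obtain ⟨z, hz, hzP⟩ : ∃ z, (∀ g ∈ S, z ∈ g • P) ∧ z ∉ P := by
    by_contra! hall
    have hle : S.inf (fun g => g • P) ≤ P := fun z hz => hall z fun g hg => by
      exact (Finset.inf_le (f := fun g => g • P) hg) hz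
    obtain ⟨g, hg, hgle⟩ := (Ideal.IsPrime.inf_le' hP.isPrime).1 hle
    exact (mem_filter.1 hg).2 ((Ideal.map_isMaximal_of_equiv
      (MulSemiringAction.toRingEquiv G B g) (p := P)).eq_of_le hP.ne_top hgle)
  have hz0 : Ideal.Quotient.mk P z ≠ 0 := by rwa [Ne, Ideal.Quotient.eq_zero_iff_mem]
  obtain ⟨w, hw⟩ := Ideal.Quotient.mk_surjective (y / Ideal.Quotient.mk P z)
  refine ⟨z * w, fun hmem => hy ?_⟩
  rw [← Ideal.Quotient.eq_zero_iff_mem, map_sum] at hmem
  rw [← Finset.sum_filter_add_sum_filter_not univ (fun g : G => g • P = P),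
    Finset.sum_eq_zero (s := univ.filter fun g : G => ¬g • P = P) fun g hg => ?_, add_zero] at hmem
  · rw [← hmem]
    symm
    refine Finset.sum_bij' (fun g hg => ⟨g, (mem_filter.1 hg).2⟩) (fun d _ => (d : G))
      (fun g _ => mem_univ _) (fun d _ => mem_filter.2 ⟨mem_univ _, d.2⟩) (fun g _ => rfl)
      (fun d _ => rfl) fun g hg => ?_
    rw [← show Ideal.Quotient.mk P (z * w) = y by rw [map_mul, hw, mul_div_cancel₀ _ hz0]]
    rfl
  · rw [Ideal.Quotient.eq_zero_iff_mem, smul_mul']
    refine P.mul_mem_right _ ?_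
    have hg' : g⁻¹ • P ≠ P := fun e => (mem_filter.1 hg).2 (by
      conv_lhs => rw [← e]
      rw [smul_inv_smul])
    have := hz g⁻¹ (mem_filter.2 ⟨mem_univ _, hg'⟩)
    rw [Ideal.mem_pointwise_smul_iff_inv_smul_mem, inv_inv] at this
    exact this

/-- **A norm is `1` iff all primes are tame.** -/
theorem exists_norm_eq_one_iff [FaithfulSMul A B] :
    (∃ c : B, ∑ g : G, g • c = 1) ↔
      ∀ P : Ideal B, P.IsMaximal → (Nat.card (P.inertia G) : B ⧸ P) ≠ 0 := by
  classical
  constructor
  · rintro ⟨c, hc⟩ P hP h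
    exact hP.ne_top ((Ideal.eq_top_iff_one P).2 (hc ▸ sum_smul_mem P h c))
  · intro htame
    haveI : Algebra.IsIntegral A B := Algebra.IsInvariant.isIntegral A B G
    let N : B →ₗ[A] B := ∑ g : G, DistribSMul.toLinearMap A B g
    have hN : ∀ x, N x = ∑ g : G, g • x := fun x => by simp [N]
    set J : Ideal A := (LinearMap.range N).comap (Algebra.linearMap A B)
    by_contra hno
    have hJ : J ≠ ⊤ := fun e => hno (by
      obtain ⟨c, hc⟩ := (e ▸ Submodule.mem_top : (1 : A) ∈ J)
      exact ⟨c, by rw [← hN, hc]; simp⟩)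
    obtain ⟨m, hm, hJm⟩ := Ideal.exists_le_maximal J hJ
    obtain ⟨P, hP, hPm⟩ := Ideal.exists_ideal_over_maximal_of_isIntegral (S := B) m (by
      rw [(RingHom.injective_iff_ker_eq_bot _).1 (FaithfulSMul.algebraMap_injective A B)]
      exact bot_le)
    haveI := hP
    obtain ⟨x, hx⟩ := exists_sum_smul_notMem A P (htame P hP)
    obtain ⟨a, ha⟩ := Algebra.IsInvariant.isInvariant (A := A) (G := G) (∑ g : G, g • x)
        fun h => by
      rw [Finset.smul_sum]
      exact Fintype.sum_equiv (Equiv.mulLeft h) _ _ fun g => by rw [smul_smul]; rfl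
    have haJ : a ∈ J := ⟨x, by rw [hN, ← ha]; rfl⟩
    have := hJm haJ
    rw [← hPm, Ideal.mem_comap, ha] at this
    exact hx this

end FA.NoetherTame

end
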