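import Fermat.Agent.NoetherTame.Projective
import Fermat.Agent.NoetherTame.Tame
import Mathlib.Algebra.Module.FinitePresentation
import Mathlib.NumberTheory.NumberField.Basic
import Mathlib.NumberTheory.RamificationInertia.Galois
import Mathlib.RingTheory.Flat.EquationalCriterion
import Mathlib.RingTheory.Ideal.Quotient.HasFiniteQuotients
import Mathlib.RingTheory.Localization.AtPrime.Basic
import Mathlib.RingTheory.IntegralClosure.IntegralRestrict

/-!
# Noether's theorem for number fields

For a Galois extension of number fields with group `G`, the integers upstairs are projective over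
the group ring of the integers downstairs iff some trace is `1`, iff all ramification indices are
prime to the residue characteristics.
-/

set_option autoImplicit false
set_option linter.style.haveILetI false

noncomputable section

namespace FA.NoetherTame

open NumberField Finset
open scoped Pointwise

variable (K L : Type*) [Field K] [NumberField K] [Field L] [NumberField L] [Algebra K L]
  [IsGalois K L]

omit [IsGalois K L] in
theorem projective_integers : Module.Projective (𝓞 K) (𝓞 L) :=
  haveI := Module.finitePresentation_of_finite (𝓞 K) (𝓞 L)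
  Module.Flat.projective_of_finitePresentation

/-- The trace is the sum of the conjugates. -/
theorem sum_smul_eq_one_iff (c : 𝓞 L) :
    ∑ g : L ≃ₐ[K] L, g • c = 1 ↔ Algebra.trace K L (c : L) = 1 := by
  rw [← (algebraMap K L).injective.eq_iff, trace_eq_sum_automorphisms, map_one,
    ← (RingOfIntegers.coe_injective (K := L)).eq_iff, map_sum, map_one]
  rfl

omit [IsGalois K L] in
theorem surjective_intTrace_iff :
    Function.Surjective (Algebra.intTrace (𝓞 K) (𝓞 L)) ↔
      ∃ c : 𝓞 L, Algebra.trace K L (c : L) = 1 := by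
  have key : ∀ c : 𝓞 L,
      Algebra.intTrace (𝓞 K) (𝓞 L) c = 1 ↔ Algebra.trace K L (c : L) = 1 := fun c => by
    rw [← Algebra.algebraMap_intTrace (A := 𝓞 K) (K := K) (L := L) (B := 𝓞 L) c,
      ← (RingOfIntegers.coe_injective (K := K)).eq_iff, map_one]
  refine ⟨fun h => (h 1).imp fun c => (key c).1, fun ⟨c, hc⟩ a => ⟨a • c, ?_⟩⟩
  rw [map_smul, (key c).2 hc, smul_eq_mul, mul_one]

/-- **Projective iff the trace is onto.** -/
theorem projective_iff_trace :
    Module.Projective (MonoidAlgebra (𝓞 K) (L ≃ₐ[K] L))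
        (GroupRingModule (𝓞 K) (𝓞 L) (L ≃ₐ[K] L)) ↔
      Function.Surjective (Algebra.intTrace (𝓞 K) (𝓞 L)) := by
  haveI := projective_integers K L
  rw [projective_iff, surjective_intTrace_iff]
  exact exists_congr (sum_smul_eq_one_iff K L)

/-- **Trace onto iff tame.** -/
theorem trace_iff_inertia :
    Function.Surjective (Algebra.intTrace (𝓞 K) (𝓞 L)) ↔
      ∀ P : Ideal (𝓞 L), P.IsMaximal →
        (Nat.card (P.inertia (L ≃ₐ[K] L)) : 𝓞 L ⧸ P) ≠ 0 := by
  rw [surjective_intTrace_iff, ← exists_norm_eq_one_iff (A := 𝓞 K)]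
  exact exists_congr fun c => (sum_smul_eq_one_iff K L c).symm

omit [NumberField K] [NumberField L] [IsGalois K L] in
theorem natCast_quotient_eq_zero_iff {m : Ideal (𝓞 K)} (P : Ideal (𝓞 L)) [P.LiesOver m] (e : ℕ) :
    (e : 𝓞 L ⧸ P) = 0 ↔ (e : 𝓞 K ⧸ m) = 0 := by
  rw [← map_natCast (Ideal.Quotient.mk P), ← map_natCast (Ideal.Quotient.mk m),
    Ideal.Quotient.eq_zero_iff_mem, Ideal.Quotient.eq_zero_iff_mem, Ideal.mem_of_liesOver P m,
    map_natCast]

/-- The same for a prime downstairs, with the ramification index. -/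
theorem trace_iff_ramificationIdx :
    Function.Surjective (Algebra.intTrace (𝓞 K) (𝓞 L)) ↔
      ∀ m : Ideal (𝓞 K), m.IsPrime → m ≠ ⊥ →
        (m.ramificationIdxIn (𝓞 L) : 𝓞 K ⧸ m) ≠ 0 := by
  rw [trace_iff_inertia]
  constructor
  · intro h m hm hm0
    haveI := hm.isMaximal hm0
    obtain ⟨P, hP, hPm⟩ := Ideal.exists_ideal_over_maximal_of_isIntegral (S := 𝓞 L) m (by
      rw [(RingHom.injective_iff_ker_eq_bot _).1 (FaithfulSMul.algebraMap_injective (𝓞 K) (𝓞 L))]
      exact bot_le)
    haveI := hP.isPrime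
    haveI : P.LiesOver m := ⟨hPm.symm⟩
    rw [← Ideal.card_inertia_eq_ramificationIdxIn (G := L ≃ₐ[K] L) m P, Ne,
      ← natCast_quotient_eq_zero_iff K L P]
    exact h P hP
  · intro h P hP
    haveI := hP.isPrime
    have h0 : P.under (𝓞 K) ≠ ⊥ := by
      haveI := Ideal.IsMaximal.under (𝓞 K) P
      exact fun e => RingOfIntegers.not_isField K (Ring.isField_iff_maximal_bot.2 (e ▸ this))
    haveI : (P.under (𝓞 K)).IsMaximal := Ideal.IsMaximal.under (𝓞 K) P
    rw [Ne, natCast_quotient_eq_zero_iff K L (m := P.under (𝓞 K)) P,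
      Ideal.card_inertia_eq_ramificationIdxIn (G := L ≃ₐ[K] L) (P.under (𝓞 K)) P]
    exact h _ inferInstance h0

end FA.NoetherTame

end
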