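import Mathlib.Algebra.Module.Projective
import Mathlib.RepresentationTheory.Basic
import Mathlib.RingTheory.Invariant.Defs

/-!
# Projectivity over the group ring and surjectivity of the norm

Let a finite group `G` act on a commutative `A`-algebra `B` with `A` as its invariants. If `B` is
projective over `A[G]` then `1` is the sum of the conjugates of some element, since that is so in
a free module. If `∑ g • c = 1` and `B` is projective over `A`, the average weighted by `c` of an
`A`-linear section of a free presentation is `A[G]`-linear, so `B` is projective over `A[G]`.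
-/

set_option autoImplicit false
set_option linter.style.haveILetI false

noncomputable section

namespace FA.NoetherTame

open MonoidAlgebra Finset

variable (A B G : Type*) [CommRing A] [CommRing B] [Algebra A B] [Group G]
  [MulSemiringAction G B] [SMulCommClass G A B]

/-- `B` as a module over the group ring. -/
abbrev GroupRingModule : Type _ := (Representation.ofDistribMulAction A G B).asModule

variable {A B G}

/-- The identity, to pass to the group ring. -/
abbrev toGR : B ≃ₗ[A] GroupRingModule A B G :=
  (Representation.asModuleEquiv (Representation.ofDistribMulAction A G B)).symm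

theorem of_smul_toGR (g : G) (x : B) :
    MonoidAlgebra.of A G g • toGR (A := A) (G := G) x = toGR (g • x) := by
  rw [← Representation.asModuleEquiv_symm_map_rho]
  rfl

theorem algebraMap_smul_toGR (a : A) (x : B) :
    algebraMap A (MonoidAlgebra A G) a • toGR (A := A) (G := G) x = toGR (a • x) :=
  (Representation.asModuleEquiv_symm_map_smul _ a x).symm

variable [Fintype G]

/-- **A projective module has a norm `1`.** -/
theorem exists_norm_eq_one
    (h : Module.Projective (MonoidAlgebra A G) (GroupRingModule A B G)) :
    ∃ c : B, ∑ g : G, g • c = 1 := by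
  classical
  obtain ⟨s, hs⟩ := h.out
  set u := toGR (A := A) (G := G) (1 : B) with hu
  have hinv : ∀ g m, MonoidAlgebra.of A G g * s u m = s u m := fun g m => by
    have h1 : MonoidAlgebra.of A G g • u = u := by rw [hu, of_smul_toGR, smul_one]
    conv_rhs => rw [← h1, map_smul]
    rfl
  have hconst : ∀ m g, (s u m).coeff g = (s u m).coeff 1 := fun m g => by
    conv_lhs => rw [← hinv g m]
    rw [MonoidAlgebra.of_apply, coeff_single_mul_eq_mul_coeff 1 fun m' _ => by simp,
      one_mul]
  have hexp : ∀ m, s u m = ∑ g : G, MonoidAlgebra.single g ((s u m).coeff 1) := fun m => by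
    refine MonoidAlgebra.ext (Finsupp.ext fun g => ?_)
    rw [MonoidAlgebra.coeff_sum, Finset.sum_apply', Finset.sum_eq_single g (fun g' _ hg' => ?_)
      (fun h => absurd (mem_univ g) h), hconst m g]
    · simp [MonoidAlgebra.coeff_single]
    · simp [MonoidAlgebra.coeff_single, hg']
  refine ⟨∑ m ∈ (s u).support, (s u m).coeff 1 • (toGR (A := A) (G := G)).symm m, ?_⟩
  apply (toGR (A := A) (G := G)).injective
  rw [← hu]
  conv_rhs => rw [← hs u, Finsupp.linearCombination_apply, Finsupp.sum]
  simp only [id_eq, Finset.smul_sum, map_sum]
  rw [Finset.sum_comm]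
  refine Finset.sum_congr rfl fun m _ => ?_
  conv_rhs => rw [hexp m, Finset.sum_smul]
  refine Finset.sum_congr rfl fun g _ => ?_
  rw [smul_comm, ← algebraMap_smul_toGR, ← of_smul_toGR, LinearEquiv.apply_symm_apply, smul_smul]
  congr 1
  simp [MonoidAlgebra.single_mul_single]

/-- **A norm `1` gives projectivity.** -/
theorem projective_of_norm_eq_one [Module.Projective A B] {c : B} (hc : ∑ g : G, g • c = 1) :
    Module.Projective (MonoidAlgebra A G) (GroupRingModule A B G) := by
  classical
  obtain ⟨i₀, hi₀⟩ := (inferInstance : Module.Projective A B).out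
  set R := MonoidAlgebra A G
  let π : (B →₀ R) →ₗ[R] GroupRingModule A B G :=
    Finsupp.linearCombination R fun b => toGR (A := A) (G := G) b
  let iF : B → (B →₀ R) := fun x => (i₀ x).mapRange (algebraMap A R) (map_zero _)
  have hπi : ∀ x, π (iF x) = toGR x := fun x => by
    conv_rhs => rw [← hi₀ x]
    simp only [π, iF, Finsupp.linearCombination_apply]
    rw [Finsupp.sum_mapRange_index fun b => zero_smul R (toGR (A := A) (G := G) b), Finsupp.sum,
      Finsupp.sum, map_sum]
    exact Finset.sum_congr rfl fun b _ => algebraMap_smul_toGR _ b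
  have hadd : ∀ x y, iF (x + y) = iF x + iF y := fun x y => by
    simp only [iF, map_add, Finsupp.mapRange_add (map_add _)]
  have hsmul : ∀ (a : A) x, iF (a • x) = algebraMap A R a • iF x := fun a x => by
    refine Finsupp.ext fun b => ?_
    simp only [iF, map_smul, Finsupp.mapRange_apply, Finsupp.smul_apply, smul_eq_mul, map_mul]
  let S : GroupRingModule A B G → (B →₀ R) := fun x =>
    ∑ g : G, MonoidAlgebra.of A G g • iF (c * g⁻¹ • (toGR (A := A) (G := G)).symm x)
  have hSadd : ∀ x y, S (x + y) = S x + S y := fun x y => by
    simp only [S, map_add, smul_add, mul_add, hadd, Finset.sum_add_distrib]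
  have hSof : ∀ h x, S (MonoidAlgebra.of A G h • x) = MonoidAlgebra.of A G h • S x := fun h x => by
    simp only [S, Finset.smul_sum]
    rw [← Equiv.sum_comp (Equiv.mulLeft h)]
    refine Finset.sum_congr rfl fun g _ => ?_
    rw [Equiv.coe_mulLeft, ← (toGR (A := A) (G := G)).apply_symm_apply x, of_smul_toGR,
      LinearEquiv.symm_apply_apply, LinearEquiv.symm_apply_apply, smul_smul, map_mul, mul_smul]
    congr 4
    simp [mul_inv_rev]
  have hSalg : ∀ a x, S (algebraMap A R a • x) = algebraMap A R a • S x := fun a x => by
    simp only [S, Finset.smul_sum]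
    refine Finset.sum_congr rfl fun g _ => ?_
    rw [← (toGR (A := A) (G := G)).apply_symm_apply x, algebraMap_smul_toGR,
      LinearEquiv.symm_apply_apply, LinearEquiv.symm_apply_apply, smul_comm g⁻¹ a,
      mul_smul_comm, hsmul, smul_smul, smul_smul, Algebra.commutes]
  have hSsmul : ∀ (r : R) x, S (r • x) = r • S x := fun r x => by
    refine MonoidAlgebra.induction_on (motive := fun r => S (r • x) = r • S x) r
      (fun g => hSof g x) (fun r r' h h' => ?_) fun a r h => ?_
    · rw [add_smul, hSadd, h, h', add_smul]
    · rw [Algebra.smul_def, mul_smul, hSalg, h, mul_smul]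
  let s : GroupRingModule A B G →ₗ[R] (B →₀ R) :=
    { toFun := S, map_add' := hSadd, map_smul' := hSsmul }
  refine Module.Projective.of_split s π (LinearMap.ext fun x => ?_)
  change π (S x) = x
  simp only [S, map_sum, map_smul, hπi, of_smul_toGR, smul_mul', smul_inv_smul]
  rw [← map_sum, ← Finset.sum_mul, hc, one_mul, LinearEquiv.apply_symm_apply]

/-- **Projective iff some element has norm `1`.** -/
theorem projective_iff [Module.Projective A B] :
    Module.Projective (MonoidAlgebra A G) (GroupRingModule A B G) ↔
      ∃ c : B, ∑ g : G, g • c = 1 :=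
  ⟨exists_norm_eq_one, fun ⟨_, hc⟩ => projective_of_norm_eq_one hc⟩

end FA.NoetherTame

end
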