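import Fermat.Agent.NoetherTame.NumberField
import Fermat.Agent.HilbertSpeiser.Defs

/-!
# Over `ℚ`: normal integral bases and free modules over `ℤ[G]`
-/

set_option autoImplicit false
set_option linter.style.haveILetI false

noncomputable section

namespace FA.NoetherTame

open NumberField Finset MonoidAlgebra

variable {F : Type*} [Field F] [NumberField F] [IsGalois ℚ F]

omit [IsGalois ℚ F] in
/-- A normal integral basis makes the integers free over `ℤ[G]`. -/
theorem free_of_hasNormalIntegralBasis (h : FA.HilbertSpeiser.HasNormalIntegralBasis F) :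
    Module.Free (MonoidAlgebra ℤ (F ≃ₐ[ℚ] F)) (GroupRingModule ℤ (𝓞 F) (F ≃ₐ[ℚ] F)) := by
  classical
  obtain ⟨θ, b, hb⟩ := h
  set φ := LinearMap.toSpanSingleton (MonoidAlgebra ℤ (F ≃ₐ[ℚ] F))
    (GroupRingModule ℤ (𝓞 F) (F ≃ₐ[ℚ] F)) (toGR (A := ℤ) (G := F ≃ₐ[ℚ] F) θ)
  have hφ : ∀ r, φ r = toGR (b.equivFun.symm fun σ => r.coeff σ) := fun r => by
    rw [b.equivFun_symm_apply, map_sum]
    change r • toGR (A := ℤ) (G := F ≃ₐ[ℚ] F) θ = _
    refine MonoidAlgebra.induction_linear r ?_ (fun x y hx hy => ?_) fun σ a => ?_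
    · simp
    · rw [add_smul, hx, hy, ← sum_add_distrib]
      refine sum_congr rfl fun σ _ => ?_
      rw [MonoidAlgebra.coeff_add, Finsupp.add_apply, add_smul, map_add]
    · rw [sum_eq_single σ (fun τ _ hτ => by simp [MonoidAlgebra.coeff_single, Ne.symm hτ])
        (fun h => absurd (mem_univ _) h), MonoidAlgebra.coeff_single, Finsupp.single_eq_same, hb]
      refine toGR.symm.injective ?_
      simp
      rfl
  refine Module.Free.of_equiv (LinearEquiv.ofBijective φ ⟨fun r r' e => ?_, fun x => ?_⟩)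
  · rw [hφ, hφ] at e
    exact MonoidAlgebra.ext (Finsupp.ext fun σ =>
      congrFun (b.equivFun.symm.injective (toGR.injective e)) σ)
  · refine ⟨MonoidAlgebra.ofCoeff (Finsupp.equivFunOnFinite.symm (b.equivFun (toGR.symm x))), ?_⟩
    rw [hφ]
    exact (congrArg toGR (b.equivFun.symm_apply_apply _)).trans (toGR.apply_symm_apply x)

/-- A projective module has a trace `1`. -/
theorem exists_trace_of_projective
    (h : Module.Projective (MonoidAlgebra ℤ (F ≃ₐ[ℚ] F))
      (GroupRingModule ℤ (𝓞 F) (F ≃ₐ[ℚ] F))) : ∃ x : 𝓞 F, Algebra.trace ℚ F (x : F) = 1 :=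
  (exists_norm_eq_one h).imp fun c => (sum_smul_eq_one_iff ℚ F c).1

/-- Tameness at the rational primes. -/
theorem exists_trace_iff_tame :
    (∃ x : 𝓞 F, Algebra.trace ℚ F (x : F) = 1) ↔
      ∀ p : ℕ, p.Prime → ¬ p ∣ Ideal.ramificationIdxIn (Ideal.span {(p : ℤ)}) (𝓞 F) := by
  classical
  rw [exists_congr fun c => (sum_smul_eq_one_iff ℚ F c).symm, exists_norm_eq_one_iff (A := ℤ)]
  have hmax : ∀ p : ℕ, p.Prime → (Ideal.span {(p : ℤ)}).IsMaximal := fun p hp =>
    PrincipalIdealRing.isMaximal_of_irreducible (Nat.prime_iff_prime_int.1 hp).irreducible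
  have key : ∀ (p : ℕ) (P : Ideal (𝓞 F)) [P.LiesOver (Ideal.span {(p : ℤ)})] (e : ℕ),
      (e : 𝓞 F ⧸ P) = 0 ↔ p ∣ e := fun p P _ e => by
    rw [← map_natCast (Ideal.Quotient.mk P), Ideal.Quotient.eq_zero_iff_mem,
      ← map_natCast (algebraMap ℤ (𝓞 F)), ← Ideal.mem_of_liesOver P (Ideal.span {(p : ℤ)}),
      Ideal.mem_span_singleton, Int.natCast_dvd_natCast]
  constructor
  · intro h p hp
    haveI := hmax p hp
    obtain ⟨P, hP, hPm⟩ := Ideal.exists_ideal_over_maximal_of_isIntegral (S := 𝓞 F)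
      (Ideal.span {(p : ℤ)}) (by
      rw [(RingHom.injective_iff_ker_eq_bot _).1 (FaithfulSMul.algebraMap_injective ℤ (𝓞 F))]
      exact bot_le)
    haveI := hP.isPrime
    haveI : P.LiesOver (Ideal.span {(p : ℤ)}) := ⟨hPm.symm⟩
    rw [← Ideal.card_inertia_eq_ramificationIdxIn (G := F ≃ₐ[ℚ] F) (Ideal.span {(p : ℤ)}) P,
      ← key p P]
    exact h P hP
  · intro h P hP
    haveI := hP.isPrime
    haveI := Ideal.IsMaximal.under ℤ P
    obtain ⟨z, hz⟩ := (IsPrincipalIdealRing.principal (P.under ℤ)).principal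
    have hspan : P.under ℤ = Ideal.span {(z.natAbs : ℤ)} := by
      rw [Int.span_natAbs]; exact hz
    have h0 : (z.natAbs : ℤ) ≠ 0 := fun e => Int.not_isField (Ring.isField_iff_maximal_bot.2 (by
      rw [e, Ideal.span_singleton_zero] at hspan
      rw [← hspan]
      infer_instance))
    have hp : z.natAbs.Prime := by
      rw [Nat.prime_iff_prime_int, ← Ideal.span_singleton_prime h0, ← hspan]
      infer_instance
    haveI := hmax _ hp
    haveI : P.LiesOver (Ideal.span {(z.natAbs : ℤ)}) := ⟨hspan.symm⟩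
    rw [Ne, key z.natAbs P,
      Ideal.card_inertia_eq_ramificationIdxIn (G := F ≃ₐ[ℚ] F) (Ideal.span {(z.natAbs : ℤ)}) P]
    exact h _ hp

end FA.NoetherTame

end
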